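import Mathlib

/-!
# Numerical criterion (Wiles–Lenstra, de Smit–Rubin–Schoof): definitions

For an augmented `𝒪`-algebra `π : A →ₐ[𝒪] 𝒪` we define the augmentation ideal `𝔭 = ker π`,
the ideal `Ann_A 𝔭`, the congruence ideal `η = π (Ann_A 𝔭)` and the cotangent module
`Φ = 𝔭 / 𝔭²` (an `𝒪`-module).
-/

set_option autoImplicit false

namespace Fermat.Agent.S59.NC

variable {𝒪 : Type*} [CommRing 𝒪] {A : Type*} [CommRing A] [Algebra 𝒪 A]

/-- The augmentation ideal `𝔭 = ker π`. -/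
def augIdeal (π : A →ₐ[𝒪] 𝒪) : Ideal A := RingHom.ker π

/-- The annihilator `Ann_A (ker π)`. -/
def annAug (π : A →ₐ[𝒪] 𝒪) : Ideal A := Submodule.annihilator (augIdeal π)

/-- The congruence ideal `η = π (Ann_A (ker π))`. -/
def congIdeal (π : A →ₐ[𝒪] 𝒪) : Ideal 𝒪 := (annAug π).map π

/-- The cotangent module `Φ = 𝔭 / 𝔭²` at the augmentation. -/
abbrev Cot (π : A →ₐ[𝒪] 𝒪) : Type _ := (augIdeal π).Cotangent

theorem mem_augIdeal {π : A →ₐ[𝒪] 𝒪} {x : A} : x ∈ augIdeal π ↔ π x = 0 := RingHom.mem_ker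

theorem mem_annAug {π : A →ₐ[𝒪] 𝒪} {x : A} : x ∈ annAug π ↔ ∀ y ∈ augIdeal π, x * y = 0 := by
  unfold annAug
  rw [Submodule.mem_annihilator]
  exact Iff.rfl

theorem aug_surjective (π : A →ₐ[𝒪] 𝒪) : Function.Surjective π := fun c =>
  ⟨algebraMap 𝒪 A c, by simp⟩

theorem mem_congIdeal {π : A →ₐ[𝒪] 𝒪} {c : 𝒪} : c ∈ congIdeal π ↔ ∃ x ∈ annAug π, π x = c := by
  unfold congIdeal
  rw [Ideal.mem_map_iff_of_surjective _ (aug_surjective π)]

/-- `x - π x ∈ 𝔭`. -/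
theorem sub_algebraMap_mem_augIdeal (π : A →ₐ[𝒪] 𝒪) (x : A) :
    x - algebraMap 𝒪 A (π x) ∈ augIdeal π := by
  rw [mem_augIdeal]; simp

/-- For `e ∈ Ann 𝔭`: `e * x = π x • e`. -/
theorem annAug_mul (π : A →ₐ[𝒪] 𝒪) {e : A} (he : e ∈ annAug π) (x : A) :
    e * x = π x • e := by
  have h := mem_annAug.mp he _ (sub_algebraMap_mem_augIdeal π x)
  rw [mul_sub, sub_eq_zero] at h
  rw [h, Algebra.smul_def, mul_comm]

end Fermat.Agent.S59.NC
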