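import Mathlib

/-!
# Numerical criterion: frozen statements of the isolated (Mathlib-only) lemmas

Each statement below is a `Prop`; a piece is DONE when somebody proves
`theorem xxx : XxxStatement` (sorry-free, Mathlib only) in his own namespace.
The assembly `Fermat/Agent/S59/NC/Main.lean` consumes them.
-/

set_option autoImplicit false

namespace Fermat.Agent.S59.NC

open IsLocalRing

/-- **MONO** (monomial complete intersection `(X₁ᴺ,…,Xₙᴺ)` in `k⟦X₁,…,Xₙ⟧`):
each `X_iᴺ` is a nonzerodivisor modulo the others, and `∏ X_i^(N-1) ∉ (X₁ᴺ,…,Xₙᴺ)`. -/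
def MonomialStatement : Prop :=
  ∀ (k : Type) [Field k] (n N : ℕ), 1 ≤ N →
    (∀ i : Fin n, ∀ u : MvPowerSeries (Fin n) k,
      (MvPowerSeries.X i : MvPowerSeries (Fin n) k) ^ N * u ∈
          Ideal.span ((fun j => (MvPowerSeries.X j : MvPowerSeries (Fin n) k) ^ N) '' {j | j ≠ i}) →
        u ∈ Ideal.span
          ((fun j => (MvPowerSeries.X j : MvPowerSeries (Fin n) k) ^ N) '' {j | j ≠ i})) ∧
    (∏ i : Fin n, (MvPowerSeries.X i : MvPowerSeries (Fin n) k) ^ (N - 1)) ∉
      Ideal.span (Set.range fun j => (MvPowerSeries.X j : MvPowerSeries (Fin n) k) ^ N)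

/-- **EXCH** (exchange lemma = invariance of `Hom(R/I, M/xM)`): two `M`-regular sequences of the
same length inside `I` give isomorphic `I`-torsion of the quotients.
Elementary proof: `n = 1` via `m ↦ y m : (xM : I)/xM ≃ (xyM : I)/xyM`; in general prime
avoidance gives `z ∈ I` regular on `M/(x₁..x_{n-1})M` and on `M/(y₁..y_{n-1})M`, then permute
(`IsLocalRing.isRegular_of_perm`) and induct on `M/zM`. -/
def ExchangeStatement : Prop :=
  ∀ (R : Type) [CommRing R] [IsLocalRing R] [IsNoetherianRing R]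
    (M : Type) [AddCommGroup M] [Module R M] [Module.Finite R M]
    (I : Ideal R) (xs ys : List R), xs.length = ys.length →
    (∀ x ∈ xs, x ∈ I) → (∀ y ∈ ys, y ∈ I) → I ≤ maximalIdeal R →
    RingTheory.Sequence.IsRegular M xs → RingTheory.Sequence.IsRegular M ys →
    Nonempty
      (Submodule.torsionBySet R (M ⧸ (Ideal.ofList xs • (⊤ : Submodule R M))) (I : Set R) ≃ₗ[R]
        Submodule.torsionBySet R (M ⧸ (Ideal.ofList ys • (⊤ : Submodule R M))) (I : Set R))

/-- **REGGEN** (an ideal with `n` generators containing an `M`-regular sequence of length `n`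
is generated by an `M`-regular sequence of length `n`).
Proof: Davis' coset prime avoidance gives `f'₁ ∈ f₁ + (f₂,…,fₙ)` which is `M`-regular;
grade drops by one on `M/f'₁M` (Rees, `ModuleCat.exists_isRegular_tfae`, or EXCH); induct. -/
def RegularGeneratorsStatement : Prop :=
  ∀ (R : Type) [CommRing R] [IsLocalRing R] [IsNoetherianRing R]
    (M : Type) [AddCommGroup M] [Module R M] [Module.Finite R M]
    (n : ℕ) (f : Fin n → R), (∀ i, f i ∈ maximalIdeal R) →
    (∃ rs : List R, rs.length = n ∧ (∀ r ∈ rs, r ∈ Ideal.span (Set.range f)) ∧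
      RingTheory.Sequence.IsRegular M rs) →
    ∃ f' : Fin n → R, Ideal.span (Set.range f') = Ideal.span (Set.range f) ∧
      RingTheory.Sequence.IsRegular M (List.ofFn f')

/-- **LENDET** (length of the cokernel of a square matrix over a DVR = valuation of `det`). -/
def LengthDetStatement : Prop :=
  ∀ (𝒪 : Type) [CommRing 𝒪] [IsDomain 𝒪] [IsDiscreteValuationRing 𝒪] (n : ℕ)
    (G : Matrix (Fin n) (Fin n) 𝒪), G.det ≠ 0 →
    Module.length 𝒪 ((Fin n → 𝒪) ⧸ LinearMap.range (Matrix.mulVecLin G)) =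
      Module.length 𝒪 (𝒪 ⧸ Ideal.span {G.det})

/-- **SOCLE** (a zero-dimensional complete intersection over a field is Gorenstein, in the form:
any two nonzero ideals meet). From EXCH + REGGEN + regularity of `X₁,…,Xₙ`. -/
def SocleStatement : Prop :=
  ∀ (k : Type) [Field k] (n : ℕ) (f : Fin n → MvPowerSeries (Fin n) k),
    (∀ i, MvPowerSeries.constantCoeff (f i) = 0) →
    Module.Finite k (MvPowerSeries (Fin n) k ⧸ Ideal.span (Set.range f)) →
    ∀ a b : Ideal (MvPowerSeries (Fin n) k ⧸ Ideal.span (Set.range f)),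
      a ≠ ⊥ → b ≠ ⊥ → a ⊓ b ≠ ⊥

end Fermat.Agent.S59.NC
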